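import Mathlib
import Fermat.Prelude.Def_GaloisRep_DeformationRingData
import Fermat.Prelude.Def_GaloisRep_DeformationCondition
import Fermat.Agent.S53.Rigid

set_option autoImplicit false
set_option linter.unusedSectionVars false

namespace Fermat.Agent.S53.V

open IsLocalRing
open scoped TensorProduct

/-- The absolute Galois group of `ℚ`, in the form used by the prelude. -/
abbrev GQ : Type := AlgebraicClosure ℚ ≃ₐ[ℚ] AlgebraicClosure ℚ

/-- The 2×2 matrices. -/
abbrev M2 (A : Type) : Type := Matrix (Fin 2) (Fin 2) A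

/-- The monoid homomorphism `M2 A →* End (Fin 2 → A)` (matrices acting on columns). -/
noncomputable def toEnd (A : Type) [CommRing A] : M2 A →* Module.End A (Fin 2 → A) where
  toFun M := Matrix.toLin' M
  map_one' := Matrix.toLin'_one
  map_mul' M N := Matrix.toLin'_mul M N

@[simp] lemma toEnd_apply {A : Type} [CommRing A] (M : M2 A) : toEnd A M = Matrix.toLin' M := rfl

section ofMat

variable {A : Type} [CommRing A] [IsLocalRing A]

/-- Adic continuity of a matrix-valued homomorphism. -/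
def IsContMat (r : GQ →* M2 A) : Prop :=
  ∀ n : ℕ, ∃ L : IntermediateField ℚ (AlgebraicClosure ℚ), FiniteDimensional ℚ L ∧
    ∀ σ : GQ, (∀ x ∈ L, σ x = x) → ∀ i j, (r σ - 1) i j ∈ maximalIdeal A ^ n

lemma mem_smul_top_of_coord {I : Ideal A} (w : Fin 2 → A) (hw : ∀ i, w i ∈ I) :
    w ∈ I • (⊤ : Submodule A (Fin 2 → A)) := by
  have : w = ∑ i, w i • (Pi.single i (1 : A) : Fin 2 → A) := by
    ext j
    simp [Finset.sum_apply, Pi.single_apply]
  rw [this]
  exact Submodule.sum_mem _ fun i _ => Submodule.smul_mem_smul (hw i) Submodule.mem_top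

/-- The Galois representation attached to a continuous matrix-valued homomorphism. -/
noncomputable def ofMat (r : GQ →* M2 A) (hr : IsContMat r) : GaloisRepAdic A where
  V := Fin 2 → A
  finrank_eq := by simp
  ρ := (toEnd A).comp r
  isAdicContinuous := by
    intro n
    obtain ⟨L, hL, h⟩ := hr n
    refine ⟨L, hL, fun σ hσ v => ?_⟩
    apply mem_smul_top_of_coord
    intro i
    have : ((toEnd A).comp r) σ v - v = (r σ - 1).mulVec v := by
      simp [Matrix.sub_mulVec]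
    rw [this]
    simp only [Matrix.mulVec, dotProduct]
    exact Ideal.sum_mem _ fun j _ => Ideal.mul_mem_right _ _ (h σ hσ i j)

@[simp] lemma ofMat_ρ_apply (r : GQ →* M2 A) (hr : IsContMat r) (σ : GQ) :
    (ofMat r hr).ρ σ = Matrix.toLin' (r σ) := rfl

end ofMat


section bases

variable {A : Type} [CommRing A] [IsLocalRing A]

/-- Two representations whose matrices in some bases are conjugate are equivalent. -/
lemma isEquiv_of_bases {ρ₁ ρ₂ : GaloisRepAdic A} (b₁ : Module.Basis (Fin 2) A ρ₁.V)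
    (b₂ : Module.Basis (Fin 2) A ρ₂.V) (M N : M2 A) (hMN : M * N = 1)
    (h : ∀ σ, M * LinearMap.toMatrix b₁ b₁ (ρ₁.ρ σ) = LinearMap.toMatrix b₂ b₂ (ρ₂.ρ σ) * M) :
    ρ₁.IsEquiv ρ₂ := by
  have hNM : N * M = 1 := mul_eq_one_comm.mp hMN
  refine ⟨{ toLinearEquiv := LinearEquiv.ofLinearMap (Matrix.toLin b₁ b₂ M) (Matrix.toLin b₂ b₁ N)
              ?_ ?_
            map_apply := ?_ }⟩
  · rw [← Matrix.toLin_mul, hMN, Matrix.toLin_one]
  · rw [← Matrix.toLin_mul, hNM, Matrix.toLin_one]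
  · intro σ x
    have e1 : (Matrix.toLin b₁ b₂ M) ∘ₗ (ρ₁.ρ σ) = (ρ₂.ρ σ) ∘ₗ (Matrix.toLin b₁ b₂ M) := by
      conv_lhs => rw [← Matrix.toLin_toMatrix b₁ b₁ (ρ₁.ρ σ)]
      conv_rhs => rw [← Matrix.toLin_toMatrix b₂ b₂ (ρ₂.ρ σ)]
      rw [← Matrix.toLin_mul, ← Matrix.toLin_mul, h]
    exact congrArg (fun f => f x) e1

/-- Equivalent representations have conjugate matrices in any bases. -/
lemma exists_conj_of_isEquiv {ρ₁ ρ₂ : GaloisRepAdic A} (h : ρ₁.IsEquiv ρ₂)
    (b₁ : Module.Basis (Fin 2) A ρ₁.V) (b₂ : Module.Basis (Fin 2) A ρ₂.V) :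
    ∃ M N : M2 A, M * N = 1 ∧ N * M = 1 ∧
      ∀ σ, M * LinearMap.toMatrix b₁ b₁ (ρ₁.ρ σ) = LinearMap.toMatrix b₂ b₂ (ρ₂.ρ σ) * M := by
  obtain ⟨e⟩ := h
  refine ⟨LinearMap.toMatrix b₁ b₂ e.toLinearEquiv.toLinearMap,
    LinearMap.toMatrix b₂ b₁ e.toLinearEquiv.symm.toLinearMap, ?_, ?_, ?_⟩
  · rw [← LinearMap.toMatrix_comp, LinearEquiv.comp_coe, LinearEquiv.symm_trans_self,
      LinearEquiv.refl_toLinearMap, LinearMap.toMatrix_id]
  · rw [← LinearMap.toMatrix_comp, LinearEquiv.comp_coe, LinearEquiv.self_trans_symm,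
      LinearEquiv.refl_toLinearMap, LinearMap.toMatrix_id]
  · intro σ
    rw [← LinearMap.toMatrix_comp, ← LinearMap.toMatrix_comp]
    congr 1
    ext x
    exact e.map_apply σ x

/-- The standard basis of the underlying module of `ofMat r`. -/
noncomputable def stdBasis (r : GQ →* M2 A) (hr : IsContMat r) :
    Module.Basis (Fin 2) A (ofMat r hr).V :=
  Pi.basisFun A (Fin 2)

/-- The matrix of `ofMat r` in the standard basis is `r`. -/
lemma toMatrix_ofMat (r : GQ →* M2 A) (hr : IsContMat r) (σ : GQ) :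
    LinearMap.toMatrix (stdBasis r hr) (stdBasis r hr) ((ofMat r hr).ρ σ) = r σ := by
  have : LinearMap.toMatrix (Pi.basisFun A (Fin 2)) (Pi.basisFun A (Fin 2))
      (Matrix.toLin' (r σ)) = r σ := by
    rw [LinearMap.toMatrix_eq_toMatrix', LinearMap.toMatrix'_toLin']
  exact this

/-- `ofMat r ≅ ofMat r'` iff `r` and `r'` are conjugate. -/
lemma ofMat_isEquiv_iff (r r' : GQ →* M2 A) (hr : IsContMat r) (hr' : IsContMat r') :
    (ofMat r hr).IsEquiv (ofMat r' hr') ↔
      ∃ M N : M2 A, M * N = 1 ∧ ∀ σ, M * r σ = r' σ * M := by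
  constructor
  · intro h
    obtain ⟨M, N, hMN, -, hσ⟩ := exists_conj_of_isEquiv h (stdBasis r hr) (stdBasis r' hr')
    refine ⟨M, N, hMN, fun σ => ?_⟩
    have := hσ σ
    rwa [toMatrix_ofMat, toMatrix_ofMat] at this
  · rintro ⟨M, N, hMN, hσ⟩
    refine isEquiv_of_bases (stdBasis r hr) (stdBasis r' hr') M N hMN fun σ => ?_
    rw [toMatrix_ofMat, toMatrix_ofMat]
    exact hσ σ

/-- Every representation is equivalent to `ofMat` of its matrices in a basis. -/
lemma isEquiv_ofMat_of_basis (ρ : GaloisRepAdic A) (b : Module.Basis (Fin 2) A ρ.V)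
    (r : GQ →* M2 A) (hr : IsContMat r) (h : ∀ σ, LinearMap.toMatrix b b (ρ.ρ σ) = r σ) :
    ρ.IsEquiv (ofMat r hr) := by
  refine isEquiv_of_bases b (stdBasis r hr) 1 1 (one_mul 1) fun σ => ?_
  rw [toMatrix_ofMat, one_mul, mul_one, h]

end bases


section baseChange

variable {A : Type} [CommRing A] [IsLocalRing A] {B : Type} [CommRing B] [IsLocalRing B]

/-- Push a matrix-valued homomorphism forward along a ring homomorphism. -/
noncomputable def mapMat (φ : A →+* B) (r : GQ →* M2 A) : GQ →* M2 B :=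
  ((φ.mapMatrix : M2 A →+* M2 B) : M2 A →* M2 B).comp r

@[simp] lemma mapMat_apply (φ : A →+* B) (r : GQ →* M2 A) (σ : GQ) :
    mapMat φ r σ = (r σ).map φ := rfl

lemma map_mem_maximalIdeal_pow (φ : A →+* B) (hφ : IsLocalHom φ) (n : ℕ) {x : A}
    (hx : x ∈ maximalIdeal A ^ n) : φ x ∈ maximalIdeal B ^ n := by
  have hmap : (maximalIdeal A ^ n).map φ ≤ maximalIdeal B ^ n := by
    rw [Ideal.map_pow]
    exact Ideal.pow_right_mono (Ideal.map_le_iff_le_comap.mpr fun a ha =>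
      Ideal.mem_comap.mpr (haveI := hφ; map_nonunit φ a ha)) n
  exact hmap (Ideal.mem_map_of_mem φ hx)

lemma isContMat_mapMat {r : GQ →* M2 A} (hr : IsContMat r) (φ : A →+* B) (hφ : IsLocalHom φ) :
    IsContMat (mapMat φ r) := by
  intro n
  obtain ⟨L, hL, h⟩ := hr n
  refine ⟨L, hL, fun σ hσ i j => ?_⟩
  have : (mapMat φ r σ - 1) i j = φ ((r σ - 1) i j) := by
    rcases eq_or_ne i j with rfl | hij
    · simp [Matrix.sub_apply]
    · simp [Matrix.sub_apply, Matrix.one_apply_ne hij]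
  rw [this]
  exact map_mem_maximalIdeal_pow φ hφ n (h σ hσ i j)

/-- Base change of a representation, in terms of matrices in a basis. -/
lemma baseChangeAlong_isEquiv_ofMat (φ : A →+* B) (hφ : IsLocalHom φ)
    (ρ : GaloisRepAdic A) (b : Module.Basis (Fin 2) A ρ.V)
    (r' : GQ →* M2 B) (hr' : IsContMat r')
    (h : ∀ σ, (LinearMap.toMatrix b b (ρ.ρ σ)).map φ = r' σ) :
    (ρ.baseChangeAlong φ hφ).IsEquiv (ofMat r' hr') := by
  let _ : Algebra A B := φ.toAlgebra
  let c : Module.Basis (Fin 2) B (ρ.baseChangeAlong φ hφ).V := Algebra.TensorProduct.basis B b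
  refine isEquiv_of_bases c (stdBasis r' hr') 1 1 (one_mul 1) fun σ => ?_
  rw [toMatrix_ofMat, one_mul, mul_one, ← h σ]
  exact LinearMap.toMatrix_baseChange B (ρ.ρ σ) b b

/-- Base change of `ofMat r` is `ofMat` of the pushed-forward matrices. -/
lemma ofMat_baseChangeAlong (φ : A →+* B) (hφ : IsLocalHom φ) (r : GQ →* M2 A)
    (hr : IsContMat r) :
    ((ofMat r hr).baseChangeAlong φ hφ).IsEquiv (ofMat (mapMat φ r) (isContMat_mapMat hr φ hφ)) := by
  refine baseChangeAlong_isEquiv_ofMat φ hφ (ofMat r hr) (stdBasis r hr) _ _ fun σ => ?_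
  rw [toMatrix_ofMat, mapMat_apply]

end baseChange


section residual

variable {K : Type} [Field K]

/-- Residual representations with conjugate matrices in some bases are equivalent. -/
lemma res_isEquiv_of_bases {ρ₁ ρ₂ : ResidualGaloisRep K} (b₁ : Module.Basis (Fin 2) K ρ₁.V)
    (b₂ : Module.Basis (Fin 2) K ρ₂.V) (M N : M2 K) (hMN : M * N = 1)
    (h : ∀ σ, M * LinearMap.toMatrix b₁ b₁ (ρ₁.ρ σ) = LinearMap.toMatrix b₂ b₂ (ρ₂.ρ σ) * M) :
    ρ₁.IsEquiv ρ₂ := by
  have hNM : N * M = 1 := mul_eq_one_comm.mp hMN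
  refine ⟨{ toLinearEquiv := LinearEquiv.ofLinearMap (Matrix.toLin b₁ b₂ M) (Matrix.toLin b₂ b₁ N)
              ?_ ?_
            map_apply := ?_ }⟩
  · rw [← Matrix.toLin_mul, hMN, Matrix.toLin_one]
  · rw [← Matrix.toLin_mul, hNM, Matrix.toLin_one]
  · intro σ x
    have e1 : (Matrix.toLin b₁ b₂ M) ∘ₗ (ρ₁.ρ σ) = (ρ₂.ρ σ) ∘ₗ (Matrix.toLin b₁ b₂ M) := by
      conv_lhs => rw [← Matrix.toLin_toMatrix b₁ b₁ (ρ₁.ρ σ)]
      conv_rhs => rw [← Matrix.toLin_toMatrix b₂ b₂ (ρ₂.ρ σ)]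
      rw [← Matrix.toLin_mul, ← Matrix.toLin_mul, h]
    exact congrArg (fun f => f x) e1

/-- Equivalent residual representations have conjugate matrices in any bases. -/
lemma res_exists_conj_of_isEquiv {ρ₁ ρ₂ : ResidualGaloisRep K} (h : ρ₁.IsEquiv ρ₂)
    (b₁ : Module.Basis (Fin 2) K ρ₁.V) (b₂ : Module.Basis (Fin 2) K ρ₂.V) :
    ∃ M N : M2 K, M * N = 1 ∧ N * M = 1 ∧
      ∀ σ, M * LinearMap.toMatrix b₁ b₁ (ρ₁.ρ σ) = LinearMap.toMatrix b₂ b₂ (ρ₂.ρ σ) * M := by
  obtain ⟨e⟩ := h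
  refine ⟨LinearMap.toMatrix b₁ b₂ e.toLinearEquiv.toLinearMap,
    LinearMap.toMatrix b₂ b₁ e.toLinearEquiv.symm.toLinearMap, ?_, ?_, ?_⟩
  · rw [← LinearMap.toMatrix_comp, LinearEquiv.comp_coe, LinearEquiv.symm_trans_self,
      LinearEquiv.refl_toLinearMap, LinearMap.toMatrix_id]
  · rw [← LinearMap.toMatrix_comp, LinearEquiv.comp_coe, LinearEquiv.self_trans_symm,
      LinearEquiv.refl_toLinearMap, LinearMap.toMatrix_id]
  · intro σ
    rw [← LinearMap.toMatrix_comp, ← LinearMap.toMatrix_comp]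
    congr 1
    ext x
    exact e.map_apply σ x

variable {A : Type} [CommRing A] [IsLocalRing A]

/-- The basis of `ρ.residual` induced by a basis of `ρ`. -/
noncomputable def resBasis (ρ : GaloisRepAdic A) (b : Module.Basis (Fin 2) A ρ.V) :
    Module.Basis (Fin 2) (ResidueField A) ρ.residual.V :=
  Algebra.TensorProduct.basis (ResidueField A) b

lemma toMatrix_residual (ρ : GaloisRepAdic A) (b : Module.Basis (Fin 2) A ρ.V) (σ : GQ) :
    LinearMap.toMatrix (resBasis ρ b) (resBasis ρ b) (ρ.residual.ρ σ) =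
      (LinearMap.toMatrix b b (ρ.ρ σ)).map (residue A) :=
  LinearMap.toMatrix_baseChange (ResidueField A) (ρ.ρ σ) b b

/-- The basis of `ρbar.baseChangeAlong ψ` induced by a basis of `ρbar`. -/
noncomputable def bcBasis {k : Type} [Field k] (ρbar : ResidualGaloisRep k)
    (bbar : Module.Basis (Fin 2) k ρbar.V) (ψ : k →+* K) :
    Module.Basis (Fin 2) K (ρbar.baseChangeAlong ψ).V :=
  letI : Algebra k K := ψ.toAlgebra
  Algebra.TensorProduct.basis K bbar

lemma toMatrix_bc {k : Type} [Field k] (ρbar : ResidualGaloisRep k)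
    (bbar : Module.Basis (Fin 2) k ρbar.V) (ψ : k →+* K) (σ : GQ) :
    LinearMap.toMatrix (bcBasis ρbar bbar ψ) (bcBasis ρbar bbar ψ) ((ρbar.baseChangeAlong ψ).ρ σ) =
      (LinearMap.toMatrix bbar bbar (ρbar.ρ σ)).map ψ := by
  let _ : Algebra k K := ψ.toAlgebra
  exact LinearMap.toMatrix_baseChange K (ρbar.ρ σ) bbar bbar

/-- If the matrices of `ρ` reduce to those of `ρbar` (pushed along `ψ`), then the residual
representation of `ρ` is equivalent to the base change of `ρbar`. -/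
lemma residual_isEquiv_of_basis {k : Type} [Field k] (ρbar : ResidualGaloisRep k)
    (bbar : Module.Basis (Fin 2) k ρbar.V) (ψ : k →+* ResidueField A)
    (ρ : GaloisRepAdic A) (b : Module.Basis (Fin 2) A ρ.V)
    (h : ∀ σ, (LinearMap.toMatrix b b (ρ.ρ σ)).map (residue A) =
      (LinearMap.toMatrix bbar bbar (ρbar.ρ σ)).map ψ) :
    ρ.residual.IsEquiv (ρbar.baseChangeAlong ψ) := by
  refine res_isEquiv_of_bases (resBasis ρ b) (bcBasis ρbar bbar ψ) 1 1 (one_mul 1) fun σ => ?_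
  rw [toMatrix_residual, toMatrix_bc, one_mul, mul_one, h]

/-- `ofMat r` is a deformation of `ρbar` as soon as `r` reduces to the matrices of `ρbar`. -/
lemma ofMat_residual_isEquiv {k : Type} [Field k] (ρbar : ResidualGaloisRep k)
    (bbar : Module.Basis (Fin 2) k ρbar.V) (ψ : k →+* ResidueField A)
    (r : GQ →* M2 A) (hr : IsContMat r)
    (h : ∀ σ, (r σ).map (residue A) = (LinearMap.toMatrix bbar bbar (ρbar.ρ σ)).map ψ) :
    (ofMat r hr).residual.IsEquiv (ρbar.baseChangeAlong ψ) :=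
  residual_isEquiv_of_basis ρbar bbar ψ (ofMat r hr) (stdBasis r hr) fun σ => by
    rw [toMatrix_ofMat]; exact h σ

end residual


section lifting

variable {A : Type} [CommRing A] [IsLocalRing A]

lemma repr_mem_of_mem_smul_top {V : Type} [AddCommGroup V] [Module A V]
    (b : Module.Basis (Fin 2) A V) (I : Ideal A) {x : V}
    (hx : x ∈ I • (⊤ : Submodule A V)) (i : Fin 2) : b.repr x i ∈ I := by
  refine Submodule.smul_induction_on (p := fun x => b.repr x i ∈ I) hx ?_ ?_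
  · intro a ha w _
    simp only [map_smul, Finsupp.smul_apply, smul_eq_mul]
    exact Ideal.mul_mem_right _ _ ha
  · intro x y hx hy
    simp only [map_add, Finsupp.add_apply]
    exact Ideal.add_mem _ hx hy

/-- The matrices of a representation in a basis, as a monoid homomorphism. -/
noncomputable def matOf (ρ : GaloisRepAdic A) (b : Module.Basis (Fin 2) A ρ.V) : GQ →* M2 A where
  toFun σ := LinearMap.toMatrix b b (ρ.ρ σ)
  map_one' := by rw [map_one]; exact LinearMap.toMatrix_one b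
  map_mul' σ τ := by rw [map_mul]; exact LinearMap.toMatrix_mul b _ _

@[simp] lemma matOf_apply (ρ : GaloisRepAdic A) (b : Module.Basis (Fin 2) A ρ.V) (σ : GQ) :
    matOf ρ b σ = LinearMap.toMatrix b b (ρ.ρ σ) := rfl

lemma isContMat_matOf (ρ : GaloisRepAdic A) (b : Module.Basis (Fin 2) A ρ.V) :
    IsContMat (matOf ρ b) := by
  intro n
  obtain ⟨L, hL, h⟩ := ρ.isAdicContinuous n
  refine ⟨L, hL, fun σ hσ i j => ?_⟩
  have : (matOf ρ b σ - 1) i j = b.repr (ρ.ρ σ (b j) - b j) i := by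
    rw [Matrix.sub_apply, matOf_apply, LinearMap.toMatrix_apply, map_sub, Finsupp.sub_apply,
      Module.Basis.repr_self, Matrix.one_apply, Finsupp.single_apply]
    simp [eq_comm]
  rw [this]
  exact repr_mem_of_mem_smul_top b _ (h σ hσ (b j)) i

lemma isEquiv_ofMat_matOf (ρ : GaloisRepAdic A) (b : Module.Basis (Fin 2) A ρ.V) :
    ρ.IsEquiv (ofMat (matOf ρ b) (isContMat_matOf ρ b)) :=
  isEquiv_ofMat_of_basis ρ b _ _ fun _ => rfl

lemma isContMat_conj {r : GQ →* M2 A} (hr : IsContMat r) (N N' : M2 A) (h : N * N' = 1) :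
    IsContMat (Rigid.conj N N' h r) := by
  intro n
  obtain ⟨L, hL, hσ⟩ := hr n
  exact ⟨L, hL, fun σ hs => Rigid.conj_sub_one_mem _ N N' h r σ (hσ σ hs)⟩

lemma ofMat_conj_isEquiv {r : GQ →* M2 A} (hr : IsContMat r) (N N' : M2 A) (h : N * N' = 1) :
    (ofMat r hr).IsEquiv (ofMat (Rigid.conj N N' h r) (isContMat_conj hr N N' h)) := by
  rw [ofMat_isEquiv_iff]
  refine ⟨N', N, mul_eq_one_comm.mp h, fun σ => ?_⟩
  rw [Rigid.conj_apply, mul_assoc, mul_assoc, h, mul_one]

lemma isEquiv_trans {ρ₁ ρ₂ ρ₃ : GaloisRepAdic A} (h₁ : ρ₁.IsEquiv ρ₂) (h₂ : ρ₂.IsEquiv ρ₃) :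
    ρ₁.IsEquiv ρ₃ := by
  obtain ⟨e₁⟩ := h₁
  obtain ⟨e₂⟩ := h₂
  exact ⟨e₁.trans e₂⟩

lemma isEquiv_symm {ρ₁ ρ₂ : GaloisRepAdic A} (h₁ : ρ₁.IsEquiv ρ₂) : ρ₂.IsEquiv ρ₁ := by
  obtain ⟨e₁⟩ := h₁
  exact ⟨e₁.symm⟩

lemma isEquiv_refl (ρ : GaloisRepAdic A) : ρ.IsEquiv ρ := ⟨GaloisRepAdic.Equiv.refl ρ⟩

/-- A matrix over a local ring whose reduction has a right inverse has a right inverse. -/
lemma exists_right_inv_of_residue (M : M2 A) (Nbar : M2 (ResidueField A))
    (h : M.map (residue A) * Nbar = 1) : ∃ N : M2 A, M * N = 1 := by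
  have hdet : IsUnit M.det := by
    have h1 : (residue A) M.det * Nbar.det = 1 := by
      have := congrArg Matrix.det h
      rw [Matrix.det_mul, Matrix.det_one] at this
      rw [RingHom.map_det]
      exact this
    by_contra hnu
    have h0 : residue A M.det = 0 := by
      rw [residue_eq_zero_iff]
      exact (IsLocalRing.mem_maximalIdeal _).mpr hnu
    rw [h0, zero_mul] at h1
    exact zero_ne_one h1
  have hM : IsUnit M := (Matrix.isUnit_iff_isUnit_det M).mpr hdet
  exact hM.exists_right_inv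

/-- A deformation (a representation whose residual representation is `ρbar`) is equivalent to
`ofMat r` for a continuous `r` whose reduction is exactly the matrix form of `ρbar`. -/
theorem exists_ofMat_of_residual_isEquiv {k : Type} [Field k] (ρbar : ResidualGaloisRep k)
    (bbar : Module.Basis (Fin 2) k ρbar.V) (ψ : k →+* ResidueField A)
    (ρ : GaloisRepAdic A) (h : ρ.residual.IsEquiv (ρbar.baseChangeAlong ψ)) :
    ∃ (r : GQ →* M2 A) (hr : IsContMat r), ρ.IsEquiv (ofMat r hr) ∧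
      ∀ σ, (r σ).map (residue A) = (LinearMap.toMatrix bbar bbar (ρbar.ρ σ)).map ψ := by
  let b₀ : Module.Basis (Fin 2) A ρ.V := Module.finBasisOfFinrankEq A ρ.V ρ.finrank_eq
  obtain ⟨Mbar, Nbar, hMN, -, hσ⟩ :=
    res_exists_conj_of_isEquiv h (resBasis ρ b₀) (bcBasis ρbar bbar ψ)
  -- lift `Mbar` to a matrix over `A`
  have hsurj : ∀ i j, ∃ a : A, residue A a = Mbar i j := fun i j =>
    Ideal.Quotient.mk_surjective (Mbar i j)
  choose m hm using hsurj
  let M : M2 A := Matrix.of m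
  have hMmap : M.map (residue A) = Mbar := by
    ext i j
    exact hm i j
  obtain ⟨N, hN⟩ := exists_right_inv_of_residue M Nbar (by rw [hMmap]; exact hMN)
  have hNM : N * M = 1 := mul_eq_one_comm.mp hN
  refine ⟨Rigid.conj N M hNM (matOf ρ b₀), isContMat_conj (isContMat_matOf ρ b₀) N M hNM,
    isEquiv_trans (isEquiv_ofMat_matOf ρ b₀) (ofMat_conj_isEquiv _ N M hNM), fun σ => ?_⟩
  have h1 := hσ σ
  rw [toMatrix_residual, toMatrix_bc] at h1
  rw [Rigid.conj_apply, matOf_apply]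
  have hmap : (M * LinearMap.toMatrix b₀ b₀ (ρ.ρ σ) * N).map (residue A) =
      M.map (residue A) * (LinearMap.toMatrix b₀ b₀ (ρ.ρ σ)).map (residue A) *
        N.map (residue A) := by
    rw [Matrix.map_mul, Matrix.map_mul]
  rw [hmap, hMmap, h1, mul_assoc, ← hMmap, ← Matrix.map_mul, hN]
  simp

end lifting

end Fermat.Agent.S53.V
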